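/-
P-DS / ES1-A row 564 (ES1A-DEG), helper12.

For a modular model `X = (Γ, F, R, j)`: `j` is transcendental over `ℂ` and `[F : ℂ(j)]` is the
index of `Γ` in `SL(2, ℤ)`.

* transcendence: the series of `j` has order `-1`;
* upper bound: every `r ∈ R` satisfies the monic relation of degree `μ = [SL(2,ℤ) : Γ]` over
  `ℂ[j]` given by the coset product polynomial of an invariant representative;
* lower bound: the embeddings of a coset datum are pairwise distinct `ℂ(j)`-embeddings.
-/
import Fermat.Agent.H23.ES1A.Parts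
import Fermat.Agent.H83.Gen16Alg
import Fermat.Agent.H85.Gen16Coset
import Fermat.Agent.H32.EsAMF
import Fermat.Agent.H69.JBarTranscendental
import Fermat.Agent.H13.EsACoreC

set_option autoImplicit false

noncomputable section

open UpperHalfPlane IntermediateField
open scoped MatrixGroups Manifold

namespace Fermat.Agent.H12.ES1A

open Fermat.Agent.H23.ES1A
open Fermat.Agent.H23 (jfun)
open Fermat.Agent.H23.EsA (ModerateGrowth CosetDatum)
open Fermat.Agent.H44 (LaurentRel)

/-- The analytic `j`-function has `q`-expansion `jq` (with complex coefficients). -/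
theorem laurentRel_jfun_jq :
    LaurentRel jfun (ModularCurve.coeffEmb ℂ ModularCurve.jq) := by
  have h := Fermat.Agent.H32.laurentRel_jfun_jC 1 (Fermat.Agent.H13.esaCoreC 1)
  have e : ((Fermat.Agent.H23.EsA.jC 1 1 (one_dvd 1) : ↥(Fermat.Agent.H23.EsA.FC 1)) :
      LaurentSeries ℂ) = ModularCurve.coeffEmb ℂ ModularCurve.jq := by
    show ModularCurve.coeffEmb ℂ (ModularCurve.qExpand ℚ 1 ModularCurve.jq) = _
    rw [ModularCurve.qExpand_one_apply]
  rwa [e] at h

/-- The series of `j` in a modular model. -/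
theorem coe_j_eq (X : Model) (hX : X.IsModular) :
    ((X.j : ↥X.F) : LaurentSeries ℂ) = ModularCurve.coeffEmb ℂ ModularCurve.jq :=
  LaurentRel.unique_right hX.j_rep laurentRel_jfun_jq

/-- `j` is transcendental over `ℂ` in a modular model. -/
theorem transcendental_j (X : Model) (hX : X.IsModular) : Transcendental ℂ X.j := by
  intro halg
  have h1 : IsAlgebraic ℂ (algebraMap ↥X.F (LaurentSeries ℂ) X.j) := halg.algebraMap
  have h2 : algebraMap ↥X.F (LaurentSeries ℂ) X.j = ModularCurve.coeffEmb ℂ ModularCurve.jq :=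
    coe_j_eq X hX
  rw [h2] at h1
  exact Fermat.Agent.H69.transcendental_of_order_neg _
    (Fermat.Agent.H69.order_coeffEmb_jq_neg ℂ) h1

/-- The series of a holomorphic `Γ`-invariant function of moderate growth satisfies a monic
relation of degree `μ = [SL(2,ℤ) : Γ]` over `ℂ[j]` (generic form of
`Fermat.Agent.H32.mfClass_series_relation`). -/
theorem series_relation (Γ : Subgroup SL(2, ℤ)) [Γ.FiniteIndex] {h : ℍ → ℂ}
    {a jE : LaurentSeries ℂ} (hj : LaurentRel jfun jE) (hmd : MDiff h)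
    (hinv : ∀ β ∈ Γ, ∀ z : ℍ, h (β • z) = h z) (hgr : ModerateGrowth h)
    (ha : LaurentRel h a) :
    ∃ P : ℕ → Polynomial ℂ, P (Nat.card (SL(2, ℤ) ⧸ Γ)) = 1 ∧
      ∑ i ∈ Finset.range (Nat.card (SL(2, ℤ) ⧸ Γ) + 1),
        Polynomial.aeval jE (P i) * a ^ i = 0 := by
  obtain ⟨P, hPμ, hP⟩ := Fermat.Agent.H85.exists_poly_relation (Γ := Γ) hmd hinv
    (fun γ => Fermat.Agent.H32.expGrowth_of_bound (hgr γ))
  refine ⟨P, hPμ, ?_⟩
  have h1 : LaurentRel
      (∑ i ∈ Finset.range (Nat.card (SL(2, ℤ) ⧸ Γ) + 1),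
        (fun z => (P i).eval (jfun z)) * h ^ i)
      (∑ i ∈ Finset.range (Nat.card (SL(2, ℤ) ⧸ Γ) + 1),
        Polynomial.aeval jE (P i) * a ^ i) :=
    LaurentRel.sum _ fun i _ =>
      (Fermat.Agent.H32.laurentRel_aeval hj (P i)).mul (Fermat.Agent.H32.laurentRel_pow ha i)
  have h0 : (∑ i ∈ Finset.range (Nat.card (SL(2, ℤ) ⧸ Γ) + 1),
        (fun z => (P i).eval (jfun z)) * h ^ i) = 0 := by
    funext z
    rw [Finset.sum_apply, Pi.zero_apply, ← hP z]
    rfl
  rw [h0] at h1
  exact h1.unique_right Fermat.Agent.H44.laurentRel_zero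

/-- A monic relation of degree `μ` over `K[j]` bounds the degree over `K(j)`. -/
theorem natDegree_minpoly_le_of_relation {K F : Type*} [Field K] [Field F] [Algebra K F]
    (j r : F) (μ : ℕ) (P : ℕ → Polynomial K) (hPμ : P μ = 1)
    (hP : ∑ i ∈ Finset.range (μ + 1), Polynomial.aeval j (P i) * r ^ i = 0) :
    IsAlgebraic K⟮j⟯ r ∧ (minpoly K⟮j⟯ r).natDegree ≤ μ := by
  classical
  set jF : ↥K⟮j⟯ := AdjoinSimple.gen K j with hjF
  have hjF' : algebraMap ↥K⟮j⟯ F jF = j := AdjoinSimple.algebraMap_gen K j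
  set p : Polynomial ↥K⟮j⟯ :=
    ∑ i ∈ Finset.range (μ + 1), Polynomial.C (Polynomial.aeval jF (P i)) * Polynomial.X ^ i
    with hp
  have hpdeg : p.natDegree ≤ μ := by
    refine Polynomial.natDegree_sum_le_of_forall_le _ _ fun i hi => ?_
    exact (Polynomial.natDegree_C_mul_X_pow_le _ _).trans
      (Nat.lt_succ_iff.mp (Finset.mem_range.mp hi))
  have hpcoeff : p.coeff μ = 1 := by
    rw [hp, Polynomial.finsetSum_coeff]
    rw [Finset.sum_eq_single μ]
    · rw [Polynomial.coeff_C_mul_X_pow, if_pos rfl, hPμ, map_one]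
    · intro i _ hin
      rw [Polynomial.coeff_C_mul_X_pow, if_neg (Ne.symm hin)]
    · intro hn'
      exact absurd (Finset.mem_range.mpr (Nat.lt_succ_self μ)) hn'
  have hp0 : p ≠ 0 := by
    intro h0
    rw [h0, Polynomial.coeff_zero] at hpcoeff
    exact zero_ne_one hpcoeff
  have hpa : Polynomial.aeval r p = 0 := by
    rw [hp, map_sum, ← hP]
    refine Finset.sum_congr rfl fun i _ => ?_
    rw [map_mul, Polynomial.aeval_C, map_pow, Polynomial.aeval_X,
      ← Polynomial.aeval_algebraMap_apply, hjF']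
  exact ⟨⟨p, hp0, hpa⟩, (Polynomial.natDegree_le_of_dvd (minpoly.dvd _ r hpa) hp0).trans hpdeg⟩

/-- **Upper bound**: the function field of a modular model is finite over `ℂ(j)` of degree at
most the index of `Γ`. -/
theorem finrank_le (X : Model) (hX : X.IsModular) :
    FiniteDimensional ℂ⟮X.j⟯ ↥X.F ∧
      Module.finrank ℂ⟮X.j⟯ ↥X.F ≤ Nat.card (SL(2, ℤ) ⧸ X.Γ) := by
  have := hX.finiteIndex
  have : CharZero ℂ⟮X.j⟯ := charZero_of_injective_algebraMap (algebraMap ℂ ℂ⟮X.j⟯).injective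
  refine Fermat.Agent.H83.finrank_le_of_forall_natDegree_minpoly_le _
    (Fermat.Agent.H83.forall_natDegree_le X.j X.R hX.j_mem _ (fun r hr => ?_) (fun f => ?_))
  · obtain ⟨h, hrep, hmd, hinv, hgr⟩ := hX.rep r hr
    obtain ⟨P, hPμ, hP⟩ := series_relation X.Γ hX.j_rep hmd hinv hgr hrep
    refine natDegree_minpoly_le_of_relation X.j r _ P hPμ ?_
    apply Subtype.ext
    have e : ((∑ i ∈ Finset.range (Nat.card (SL(2, ℤ) ⧸ X.Γ) + 1),
        Polynomial.aeval X.j (P i) * r ^ i : ↥X.F) : LaurentSeries ℂ)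
        = ∑ i ∈ Finset.range (Nat.card (SL(2, ℤ) ⧸ X.Γ) + 1),
          Polynomial.aeval ((X.j : ↥X.F) : LaurentSeries ℂ) (P i)
            * ((r : ↥X.F) : LaurentSeries ℂ) ^ i := by
      rw [show ((∑ i ∈ Finset.range (Nat.card (SL(2, ℤ) ⧸ X.Γ) + 1),
          Polynomial.aeval X.j (P i) * r ^ i : ↥X.F) : LaurentSeries ℂ)
        = ∑ i ∈ Finset.range (Nat.card (SL(2, ℤ) ⧸ X.Γ) + 1),
          ((Polynomial.aeval X.j (P i) * r ^ i : ↥X.F) : LaurentSeries ℂ) from
        map_sum X.F.val _ _]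
      refine Finset.sum_congr rfl fun i _ => ?_
      rw [IntermediateField.coe_mul, IntermediateField.coe_pow]
      congr 1
      exact (Polynomial.aeval_algebraMap_apply (LaurentSeries ℂ) X.j (P i)).symm ▸ rfl
    rw [e, hP]
    rfl
  · obtain ⟨r, s, hr, hs, hs0, hfs⟩ := hX.frac f
    exact ⟨r, hr, s, hs, hs0, hfs⟩

/-- **Lower bound** (generic form of `Fermat.Agent.H23.card_le_finrank_of_analyticDatum`):
the embeddings of a coset datum over `j - a` are pairwise distinct `K(j)`-embeddings. -/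
theorem card_le_finrank_of_cosetDatum {K F : Type} [Field K] [Field F] [Algebra K F]
    {Γ : Subgroup SL(2, ℤ)} (j : F) (a : K) {g : SL(2, ℤ)} {e₀ : ℕ}
    (A : CosetDatum K F Γ (j - algebraMap K F a) g e₀) [FiniteDimensional K⟮j⟯ F] :
    Nat.card (SL(2, ℤ) ⧸ Γ) ≤ Module.finrank K⟮j⟯ F := by
  classical
  -- all embeddings agree on `K⟮j⟯`
  have hagree : ∀ (γ : SL(2, ℤ)) (e : F), e ∈ K⟮j⟯ → A.σ γ e = A.σ 1 e := by
    intro γ e he
    induction he using IntermediateField.adjoin_induction with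
    | mem x hx =>
      rw [Set.mem_singleton_iff] at hx
      subst hx
      have h := A.σ_y γ 1
      have hc := A.σ_const γ 1 a
      have e1 : ∀ s : F →+* A.M, s x = s (x - algebraMap K F a) + s (algebraMap K F a) :=
        fun s => by rw [← map_add, sub_add_cancel]
      rw [e1 (A.σ γ), e1 (A.σ 1), h, hc]
    | algebraMap c => exact A.σ_const γ 1 c
    | add x y _ _ hx hy => rw [map_add, map_add, hx, hy]
    | inv x _ hx => rw [map_inv₀, map_inv₀, hx]
    | mul x y _ _ hx hy => rw [map_mul, map_mul, hx, hy]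
  let _ : Algebra K⟮j⟯ A.M := ((A.σ 1).comp (algebraMap K⟮j⟯ F)).toAlgebra
  let φ : (SL(2, ℤ) ⧸ Γ) → (F →ₐ[K⟮j⟯] A.M) :=
    fun q => Quotient.liftOn q
      (fun γ => ({ A.σ γ with
        commutes' := fun e => hagree γ (e : F) e.2 } : F →ₐ[K⟮j⟯] A.M))
      (fun γ γ' h => by
        have := (A.σ_eq_iff γ γ').mpr (QuotientGroup.leftRel_apply.mp h)
        exact AlgHom.ext fun f => congrArg (fun s => s f) this)
  have hφ : Function.Injective φ := by
    rintro ⟨γ⟩ ⟨γ'⟩ h
    refine Quotient.sound (QuotientGroup.leftRel_apply.mpr ((A.σ_eq_iff γ γ').mp ?_))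
    ext1 f
    exact congrArg (fun s : (F →ₐ[K⟮j⟯] A.M) => s f) h
  exact (Nat.card_le_card_of_injective φ hφ).trans (card_algHom_le_finrank K⟮j⟯ F A.M)

/-- **[DEG]** for a modular model: `j` is transcendental and the function field has degree
exactly the index of `Γ` over `ℂ(j)`. -/
theorem degree (X : Model) (hX : X.IsModular) (hPD : PointDatumStatement X) :
    DegreeStatement X := by
  obtain ⟨hfd, hle⟩ := finrank_le X hX
  obtain ⟨z₀, g, e₀, A, -⟩ := hPD 0
  exact ⟨transcendental_j X hX, hfd, le_antisymm hle (card_le_finrank_of_cosetDatum X.j 0 A)⟩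

end Fermat.Agent.H12.ES1A

end
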